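import Mathlib
import Fermat.Agent.LT.T7.H589.StepTSpec
import Fermat.Agent.LT.T5.H277.Ray

/-!
# Row LT, tower T7, leaf T7.L2.1.H2a.A.1.4 `ST589.DEkC589` (helper47, registry row 3004)

OFF-MAIN.  Complete proofs, nothing assumed.  Own names only (suffix `47`, namespace
`Fermat.Agent.LT.T7.H47.ST`).

`dEkC47 F : ST589.DEkC589 F` VERBATIM: the steps `dStep589 v H z d` preserve the
Eisenstein-killing functions with Eisenstein-killing adjoints.

The class `IsEKc47 μ φ` (continuous, compact support, Eisenstein-killing with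
Eisenstein-killing adjoint) is stable under right translations (right invariance of the Haar
measure, the ray generator is central; the adjoint of a right translate is a left translate of
the adjoint: left invariance), scalar multiples, sums and differences (the integrands are
continuous with compact support).  The steps are finite combinations of right translates.
The hypotheses `¬ v ∣ 𝔫`, `IsHeckeCosetSystem`, `IsScalarUniformizerAt` and the test function
property of the steps are NOT used.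
-/

set_option autoImplicit false

open AutomorphicForm IsDedekindDomain NumberField MeasureTheory
open scoped ComplexConjugate

noncomputable section

namespace Fermat.Agent.LT.T7.H47.ST

open Fermat.Agent.LT.H556 Fermat.Agent.LT.H556.A0 Fermat.Agent.LT.T7 Fermat.Agent.LT

attribute [local instance] Fermat.Agent.LT.T5.instMeasurableSpaceG

variable {F : Type} [Field F] [NumberField F]

/-- Continuous, compact support, Eisenstein-killing with Eisenstein-killing adjoint. -/
structure IsEKc47 (μ : Measure (G F)) (φ : G F → ℂ) : Prop where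
  cont : Continuous φ
  supp : HasCompactSupport φ
  ek : T5.IsEK μ φ
  ekadj : T5.IsEK μ (T5.adjointFn φ)

theorem borelSpace_G47 : BorelSpace (G F) := ⟨rfl⟩

theorem continuous_adjointFn47 {φ : G F → ℂ} (h : Continuous φ) :
    Continuous (T5.adjointFn φ) :=
  Complex.continuous_conj.comp (h.comp continuous_inv)

theorem hasCompactSupport_adjointFn47 {φ : G F → ℂ} (h : HasCompactSupport φ) :
    HasCompactSupport (T5.adjointFn φ) := by
  have h1 : HasCompactSupport (φ ∘ (Homeomorph.inv (G F))) :=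
    h.comp_homeomorph (Homeomorph.inv (G F))
  have h2 := h1.comp_left (g := (starRingEnd ℂ)) (map_zero _)
  exact h2

/-- The integrand of `R(φ) Ψ` is integrable. -/
theorem integrable_term47 (μ : Measure (G F)) [μ.IsHaarMeasure] {φ Ψ : G F → ℂ}
    (hφc : Continuous φ) (hφs : HasCompactSupport φ) (hΨ : Continuous Ψ) (x : G F) :
    Integrable (fun y => φ y * Ψ (x * y)) μ := by
  have := borelSpace_G47 (F := F)
  have hc : Continuous (fun y => φ y * Ψ (x * y)) :=
    hφc.mul (hΨ.comp (continuous_const.mul continuous_id))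
  exact hc.integrable_of_hasCompactSupport (hφs.mul_right)

/-- The right translate of a Borel-invariant function is Borel-invariant. -/
theorem isBorelInvariantFn_rtr47 {Ψ : G F → ℂ} (hΨ : T5.IsBorelInvariantFn Ψ) (c : G F) :
    T5.IsBorelInvariantFn (fun g => Ψ (g * c)) := by
  refine ⟨hΨ.cont.comp (continuous_id.mul continuous_const), ?_, ?_, ?_⟩
  · intro n x hn g
    show Ψ (n * g * c) = Ψ (g * c)
    rw [mul_assoc, hΨ.unip n x hn]
  · intro t a b ht g
    show Ψ (T5.ratG t * g * c) = Ψ (g * c)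
    rw [mul_assoc, hΨ.torus t a b ht]
  · obtain ⟨r, hr, hΨr⟩ := hΨ.ray
    refine ⟨r, hr, fun g => ?_⟩
    show Ψ (g * r * c) = Ψ (g * c)
    rw [mul_assoc, T5.H277.ray_comm277 hr c, ← mul_assoc, hΨr]

theorem isEKc_zero47 (μ : Measure (G F)) : IsEKc47 μ (fun _ => (0 : ℂ)) := by
  refine ⟨continuous_const, HasCompactSupport.zero, ?_, ?_⟩
  · intro Ψ _ x
    unfold T5.Rconv
    simp
  · intro Ψ _ x
    unfold T5.Rconv T5.adjointFn
    simp

theorem isEKc_smul47 {μ : Measure (G F)} {φ : G F → ℂ} (h : IsEKc47 μ φ) (a : ℂ) :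
    IsEKc47 μ (fun g => a * φ g) := by
  refine ⟨continuous_const.mul h.cont, h.supp.mul_left, ?_, ?_⟩
  · intro Ψ hΨ x
    have := h.ek Ψ hΨ x
    unfold T5.Rconv at this ⊢
    simp only [mul_assoc]
    rw [integral_const_mul, this, mul_zero]
  · intro Ψ hΨ x
    have := h.ekadj Ψ hΨ x
    unfold T5.Rconv T5.adjointFn at this ⊢
    simp only [map_mul, mul_assoc]
    rw [integral_const_mul, this, mul_zero]

theorem isEKc_add47 {μ : Measure (G F)} [μ.IsHaarMeasure] {φ ψ : G F → ℂ}
    (h : IsEKc47 μ φ) (h' : IsEKc47 μ ψ) : IsEKc47 μ (fun g => φ g + ψ g) := by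
  refine ⟨h.cont.add h'.cont, h.supp.add h'.supp, ?_, ?_⟩
  · intro Ψ hΨ x
    have e1 := h.ek Ψ hΨ x
    have e2 := h'.ek Ψ hΨ x
    unfold T5.Rconv at e1 e2 ⊢
    simp only [add_mul]
    rw [integral_add (integrable_term47 μ h.cont h.supp hΨ.cont x)
      (integrable_term47 μ h'.cont h'.supp hΨ.cont x), e1, e2, add_zero]
  · intro Ψ hΨ x
    have e1 := h.ekadj Ψ hΨ x
    have e2 := h'.ekadj Ψ hΨ x
    unfold T5.Rconv at e1 e2 ⊢
    have hadd : ∀ y, T5.adjointFn (fun g => φ g + ψ g) y * Ψ (x * y)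
        = T5.adjointFn φ y * Ψ (x * y) + T5.adjointFn ψ y * Ψ (x * y) := by
      intro y
      unfold T5.adjointFn
      simp only [map_add, add_mul]
    simp only [hadd]
    rw [integral_add
      (integrable_term47 μ (continuous_adjointFn47 h.cont) (hasCompactSupport_adjointFn47 h.supp)
        hΨ.cont x)
      (integrable_term47 μ (continuous_adjointFn47 h'.cont)
        (hasCompactSupport_adjointFn47 h'.supp) hΨ.cont x), e1, e2, add_zero]

theorem isEKc_sub47 {μ : Measure (G F)} [μ.IsHaarMeasure] {φ ψ : G F → ℂ}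
    (h : IsEKc47 μ φ) (h' : IsEKc47 μ ψ) : IsEKc47 μ (fun g => φ g - ψ g) := by
  have := isEKc_add47 h (isEKc_smul47 h' (-1))
  have e : (fun g => φ g - ψ g) = fun g => φ g + (-1) * ψ g := by
    funext g
    ring
  rw [e]
  exact this

theorem isEKc_sum47 {μ : Measure (G F)} [μ.IsHaarMeasure] {ι : Type} (s : Finset ι)
    (φ : ι → G F → ℂ) (h : ∀ i ∈ s, IsEKc47 μ (φ i)) :
    IsEKc47 μ (fun g => ∑ i ∈ s, φ i g) := by
  classical
  induction s using Finset.induction_on with
  | empty =>
    simp only [Finset.sum_empty]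
    exact isEKc_zero47 μ
  | insert a s ha ih =>
    have e : (fun g => ∑ i ∈ insert a s, φ i g) = fun g => φ a g + ∑ i ∈ s, φ i g := by
      funext g
      rw [Finset.sum_insert ha]
    rw [e]
    exact isEKc_add47 (h a (Finset.mem_insert_self a s))
      (ih fun i hi => h i (Finset.mem_insert_of_mem hi))

/-- **Right translates.** -/
theorem isEKc_rtr47 {μ : Measure (G F)} [μ.IsHaarMeasure] [μ.IsMulRightInvariant]
    {φ : G F → ℂ} (h : IsEKc47 μ φ) (c : G F) : IsEKc47 μ (fun g => φ (g * c)) := by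
  have := borelSpace_G47 (F := F)
  refine ⟨h.cont.comp (continuous_id.mul continuous_const), ?_, ?_, ?_⟩
  · exact h.supp.comp_homeomorph (Homeomorph.mulRight c)
  · intro Ψ hΨ x
    have e := h.ek (fun g => Ψ (g * c⁻¹)) (isBorelInvariantFn_rtr47 hΨ c⁻¹) x
    unfold T5.Rconv at e ⊢
    rw [← e]
    have := integral_mul_right_eq_self (μ := μ) (fun y => φ y * Ψ (x * y * c⁻¹)) c
    rw [← this]
    congr 1
    funext y
    simp [mul_assoc]
  · intro Ψ hΨ x
    have e := h.ekadj Ψ hΨ (x * c)
    unfold T5.Rconv at e ⊢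
    rw [← e]
    have := integral_mul_left_eq_self (μ := μ)
      (fun y => T5.adjointFn (fun g => φ (g * c)) y * Ψ (x * y)) c
    rw [← this]
    congr 1
    funext y
    unfold T5.adjointFn
    simp [mul_assoc]

theorem isEKc_tStep47 {μ : Measure (G F)} [μ.IsHaarMeasure] [μ.IsMulRightInvariant]
    (v : HeightOneSpectrum (𝓞 F)) (H : Finset (G F)) (z : G F)
    {φ : G F → ℂ} (h : IsEKc47 μ φ) : IsEKc47 μ (ST589.tStep589 v H z φ) := by
  have h1 : IsEKc47 μ (fun g => ∑ y ∈ H, φ (g * (z⁻¹ * y))) :=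
    isEKc_sum47 H (fun y g => φ (g * (z⁻¹ * y))) fun y _ => isEKc_rtr47 h (z⁻¹ * y)
  have h2 := isEKc_smul47 h1 (((Real.sqrt (Ideal.absNorm v.asIdeal : ℝ) : ℝ) : ℂ)⁻¹)
  have e : ST589.tStep589 v H z φ
      = fun g => (((Real.sqrt (Ideal.absNorm v.asIdeal : ℝ) : ℝ) : ℂ)⁻¹)
          * ∑ y ∈ H, φ (g * (z⁻¹ * y)) := by
    funext g
    unfold ST589.tStep589
    simp only [mul_assoc]
  rw [e]
  exact h2

theorem isEKc_sStep47 {μ : Measure (G F)} [μ.IsHaarMeasure] [μ.IsMulRightInvariant]
    (z : G F) {φ : G F → ℂ} (h : IsEKc47 μ φ) : IsEKc47 μ (ST589.sStep589 z φ) :=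
  isEKc_rtr47 h z⁻¹

theorem isEKc_dStep47 {μ : Measure (G F)} [μ.IsHaarMeasure] [μ.IsMulRightInvariant]
    (v : HeightOneSpectrum (𝓞 F)) (H : Finset (G F)) (z : G F)
    {φ : G F → ℂ} (h : IsEKc47 μ φ) :
    ∀ d : ℕ, IsEKc47 μ (ST589.dStep589 v H z d φ) ∧ IsEKc47 μ (ST589.dStep589 v H z (d + 1) φ)
  | 0 => by
    refine ⟨?_, ?_⟩
    · have := isEKc_smul47 h 2
      exact this
    · exact isEKc_tStep47 v H z h
  | (d + 1) => by
    obtain ⟨h0, h1⟩ := isEKc_dStep47 v H z h d
    refine ⟨h1, ?_⟩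
    exact isEKc_sub47 (isEKc_tStep47 v H z h1) (isEKc_sStep47 z h0)

/-- **Leaf ST.4 `DEkC589`**, verbatim, unconditional. -/
theorem dEkC47 (F : Type) [Field F] [NumberField F] : ST589.DEkC589 F := by
  intro R hR 𝔫 v _ H z _ _ f hf _ hek hekadj d
  have := borelSpace_G47 (F := F)
  have : R.μ.IsHaarMeasure := hR.frame.haar
  have : R.μ.IsMulRightInvariant := by
    refine ⟨fun g => ?_⟩
    ext A hA
    rw [Measure.map_apply (measurable_mul_const g) hA]
    exact hR.frame.right_inv g A hA
  have h : IsEKc47 R.μ f := ⟨hf.cont, hf.supp, hek, hekadj⟩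
  have := (isEKc_dStep47 v H z h d).1
  exact ⟨this.ek, this.ekadj⟩

end Fermat.Agent.LT.T7.H47.ST

end
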