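import Mathlib
import Fermat.Agent.LT.T7.H57.PreBSpec
import Fermat.Agent.LT.T7.H47.ST.DEk

/-!
# Row LT, tower T7, leaves T7.L2.1.H2a.B.0.U2 `PB57.SwapUpEKC57` and T7.L2.1.H2a.B.0.D2
# `PB57.SwapDnEKC57` (helper47, SPARES of registry rows 3066 / 3072), from the key identities

OFF-MAIN.  Complete proofs, nothing assumed.  Own names only (suffix `47`).

    swapUpEKC_of47 : PB57.SwapUpSumC57 K K' → PB57.SwapUpEKC57 K K'
    swapDnEKC_of47 : PB57.SwapDnSumC57 K K' → PB57.SwapDnEKC57 K K'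

The swapped function upstairs is the finite sum of the right translates of `Φ₁ []` by the
inverses of the elements of `HU` (the key identity under the integral; the members are
continuous in the parameter, the parameter space is compact with a finite measure), downstairs
`a ·` a finite linear combination of left translates of `F₁ []`; the class `IsEKc47` of
`DEk.lean` is stable under translations, scalar multiples and finite sums.
-/

set_option autoImplicit false

open AutomorphicForm IsDedekindDomain NumberField MeasureTheory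
open scoped ComplexConjugate

noncomputable section

namespace Fermat.Agent.LT.T7.H47.ST

open Fermat.Agent.LT.H556 Fermat.Agent.LT.H556.A0 Fermat.Agent.LT.T7 Fermat.Agent.LT
open Fermat.Agent.LT.T7.H893 Fermat.Agent.LT.T7.H305 Fermat.Agent.LT.T7.Q797

attribute [local instance] Fermat.Agent.LT.T5.instMeasurableSpaceG

section OneField

variable {F : Type} [Field F] [NumberField F]

theorem adjointFn_adjointFn47 (φ : G F → ℂ) : T5.adjointFn (T5.adjointFn φ) = φ := by
  funext g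
  unfold T5.adjointFn
  simp

/-- The class is stable under the adjoint. -/
theorem isEKc_adj47 {μ : Measure (G F)} {φ : G F → ℂ} (h : IsEKc47 μ φ) :
    IsEKc47 μ (T5.adjointFn φ) := by
  refine ⟨continuous_adjointFn47 h.cont, hasCompactSupport_adjointFn47 h.supp, h.ekadj, ?_⟩
  rw [adjointFn_adjointFn47]
  exact h.ek

/-- **Left translates.** -/
theorem isEKc_ltr47 {μ : Measure (G F)} [μ.IsHaarMeasure] [μ.IsMulRightInvariant]
    {φ : G F → ℂ} (h : IsEKc47 μ φ) (c : G F) : IsEKc47 μ (fun g => φ (c * g)) := by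
  have h1 := isEKc_adj47 (isEKc_rtr47 (isEKc_adj47 h) c⁻¹)
  have e : T5.adjointFn (fun g => T5.adjointFn φ (g * c⁻¹)) = fun g => φ (c * g) := by
    funext g
    unfold T5.adjointFn
    simp
  rw [e] at h1
  exact h1

/-- Every member of a jointly continuous family is integrable in the parameter. -/
theorem integrable_member47 {Ω : Type} [TopologicalSpace Ω] [CompactSpace Ω]
    [MeasurableSpace Ω] [BorelSpace Ω] (ν : Measure Ω) [IsFiniteMeasure ν]
    (ψ : Ω → G F → ℂ) (hc : Continuous (fun p : Ω × G F => ψ p.1 p.2)) (h : G F) :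
    Integrable (fun a => ψ a h) ν := by
  have hc' : Continuous (fun a => ψ a h) :=
    hc.comp (Continuous.prodMk continuous_id continuous_const)
  exact hc'.integrable_of_hasCompactSupport (HasCompactSupport.of_compactSpace _)

theorem rightInv_of_frame47 {R : Frame5 F} (hR : IsFrame5 R) : R.μ.IsMulRightInvariant := by
  have := borelSpace_G47 (F := F)
  refine ⟨fun g => ?_⟩
  ext A hA
  rw [Measure.map_apply (measurable_mul_const g) hA]
  exact hR.frame.right_inv g A hA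

end OneField

variable (K K' : Type) [Field K] [NumberField K] [Field K'] [NumberField K'] [Algebra K K']

/-- **Leaf PB.0.U2 `SwapUpEKC57`** from the key identity upstairs. -/
theorem swapUpEKC_of47 (hS : PB57.SwapUpSumC57 K K') : PB57.SwapUpEKC57 K K' := by
  intro ℓ hcyc hℓ hTC Φe B hB hram g hg 𝔫 h𝔫 μc hμc T₀ n n₀ m hexp c₁ Φ₁ F₁ hA fb hfb
    Ω iT iC iT2 iSC iM iB ν iF T T' φ₀ Φ f₀ F hdat
  obtain ⟨HU, -, -, hid⟩ := hS ℓ hcyc hℓ hTC Φe B hB hram g hg 𝔫 h𝔫 μc hμc T₀ n n₀ m hexp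
    c₁ Φ₁ F₁ hA fb hfb Ω iT iC iT2 iSC iM iB ν iF T T' φ₀ Φ f₀ F hdat
  have : B.R'.μ.IsHaarMeasure := hB.frame'.frame.haar
  have : B.R'.μ.IsMulRightInvariant := rightInv_of_frame47 hB.frame'
  have hcont := hdat.2.2.2.1
  have hΦ₁ := hdat.2.2.2.2.2.2.2.1
  have h0 : IsEKc47 B.R'.μ (Φ₁ []) :=
    ⟨(hA.up1_test [] (by simp)).cont, (hA.up1_test [] (by simp)).supp,
      (hA.up1_ek [] (by simp)).1, (hA.up1_ek [] (by simp)).2⟩
  have e : PB57.swapUpFn57 B T₀ n₀ ν T' φ₀ Φ = fun x => ∑ h ∈ HU, Φ₁ [] (x * h⁻¹) := by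
    funext x
    unfold PB57.swapUpFn57
    have e1 : (fun ω => pure305 (T' ω) (PB57.swUp57 B T₀ n₀ (φ₀ ω)) (Φ ω) x)
        = fun ω => ∑ h ∈ HU, pure305 (T' ω) (φ₀ ω) (Φ ω) (x * h⁻¹) := by
      funext ω
      exact (hid ω x).1
    rw [e1, integral_finsetSum]
    · refine Finset.sum_congr rfl fun h _ => ?_
      rw [hΦ₁]
    · intro h _
      exact integrable_member47 ν (fun ω => pure305 (T' ω) (φ₀ ω) (Φ ω)) hcont _
  have h1 : IsEKc47 B.R'.μ (fun x => ∑ h ∈ HU, Φ₁ [] (x * h⁻¹)) :=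
    isEKc_sum47 HU (fun h x => Φ₁ [] (x * h⁻¹)) fun h _ => isEKc_rtr47 h0 h⁻¹
  rw [e]
  exact ⟨h1.ek, h1.ekadj⟩

/-- **Leaf PB.0.D2 `SwapDnEKC57`** from the key identity downstairs. -/
theorem swapDnEKC_of47 (hS : PB57.SwapDnSumC57 K K') : PB57.SwapDnEKC57 K K' := by
  intro ℓ hcyc hℓ hTC Φe B hB hram g hg 𝔫 h𝔫 μc hμc T₀ n n₀ m hexp c₁ Φ₁ F₁ hA fb hfb
    Ω iT iC iT2 iSC iM iB ν iF T T' φ₀ Φ f₀ F hdat a
  obtain ⟨X, c, -, hid⟩ := hS ℓ hcyc hℓ hTC Φe B hB hram g hg 𝔫 h𝔫 μc hμc T₀ n n₀ m hexp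
    c₁ Φ₁ F₁ hA fb hfb Ω iT iC iT2 iSC iM iB ν iF T T' φ₀ Φ f₀ F hdat
  have : B.R.μ.IsHaarMeasure := hB.frame.frame.haar
  have : B.R.μ.IsMulRightInvariant := rightInv_of_frame47 hB.frame
  have hcont : Continuous (fun p : Ω × G K => pure305 (T p.1) (f₀ p.1) (F p.1) p.2) := by
    have := hdat.2.2.2.2.1
    simpa only [one_mul] using this
  have hF₁ : ∀ h : G K, F₁ [] h = ∫ ω, pure305 (T ω) (f₀ ω) (F ω) h ∂ν := by
    intro h
    have := hdat.2.2.2.2.2.2.2.2 h
    simpa only [one_mul] using this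
  have h0 : IsEKc47 B.R.μ (F₁ []) :=
    ⟨(hA.dn1_test [] (by simp)).cont, (hA.dn1_test [] (by simp)).supp,
      (hA.dn1_ek [] (by simp)).1, (hA.dn1_ek [] (by simp)).2⟩
  have e : PB57.swapDnFn57 B T₀ fb a ν T f₀ F
      = fun y => a * ∑ x ∈ X, c x * F₁ [] (x⁻¹ * y) := by
    funext y
    unfold PB57.swapDnFn57
    have e1 : (fun ω => a * pure305 (T ω) (PB57.swDn57 B T₀ fb (f₀ ω)) (F ω) y)
        = fun ω => a * ∑ x ∈ X, c x * pure305 (T ω) (f₀ ω) (F ω) (x⁻¹ * y) := by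
      funext ω
      rw [hid ω y]
    rw [e1, integral_const_mul, integral_finsetSum]
    · congr 1
      refine Finset.sum_congr rfl fun x _ => ?_
      rw [integral_const_mul, hF₁]
    · intro x _
      exact (integrable_member47 ν (fun ω => pure305 (T ω) (f₀ ω) (F ω)) hcont _).const_mul _
  have h1 : IsEKc47 B.R.μ (fun y => ∑ x ∈ X, c x * F₁ [] (x⁻¹ * y)) :=
    isEKc_sum47 X (fun x y => c x * F₁ [] (x⁻¹ * y)) fun x _ =>
      isEKc_smul47 (isEKc_ltr47 h0 x⁻¹) (c x)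
  have h2 := isEKc_smul47 h1 a
  rw [e]
  exact ⟨h2.ek, h2.ekadj⟩

end Fermat.Agent.LT.T7.H47.ST

end
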