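import Mathlib
import Fermat.Agent.LT.T7.H57.PreBSpec
import Fermat.Agent.LT.T7.H47.ST.SwapEK

/-!
# Row LT, tower T7, leaves T7.L2.1.H2a.B.0.U5 `PB57.SwapUpSuppC57` and T7.L2.1.H2a.B.0.D5
# `PB57.SwapDnSuppC57` (helper47, SPARES of registry rows 3069 / 3075), from the key identities

OFF-MAIN.  Complete proofs, nothing assumed.  Own names only (suffix `47`).

    swapUpSuppC_of47 : PB57.SwapUpSumC57 K K' → PB57.SwapUpSuppC57 K K'
    swapDnSuppC_of47 : PB57.SwapDnSumC57 K K' → PB57.SwapDnSuppC57 K K'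

The swapped function is a finite combination of translates of the function of the first pair by
elements which are Iwahori along the orbit: the support is Iwahori along the orbit (the Iwahori
subgroup is a group) and agrees outside the orbit with the finite union of the translates of
the compact set of the first pair.
-/

set_option autoImplicit false

open AutomorphicForm IsDedekindDomain NumberField MeasureTheory
open scoped ComplexConjugate Pointwise

noncomputable section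

namespace Fermat.Agent.LT.T7.H47.ST

open Fermat.Agent.LT.H556 Fermat.Agent.LT.H556.A0 Fermat.Agent.LT.T7 Fermat.Agent.LT
open Fermat.Agent.LT.T7.H893 Fermat.Agent.LT.T7.H305 Fermat.Agent.LT.T7.Q797

attribute [local instance] Fermat.Agent.LT.T5.instMeasurableSpaceG

section OneField

variable {F : Type} [Field F] [NumberField F]

/-- A finite sum of right translates by Iwahori elements is Iwahori-supported. -/
theorem isIwSupported_sum_rtr47 (l : ℕ) (o : ℕ → HeightOneSpectrum (𝓞 F)) (C : Set (G F))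
    (hC : IsCompact C) (φ : G F → ℂ) (hφ : T5.H32.IsIwSupported32 l o C φ)
    (H : Finset (G F)) (hH : ∀ h ∈ H, ∀ j < l, T5.InIwahori (o j) h)
    (ψ : G F → ℂ) (hψ : ∀ x, ψ x ≠ 0 → ∃ h ∈ H, φ (x * h⁻¹) ≠ 0) :
    ∃ C' : Set (G F), IsCompact C' ∧ T5.H32.IsIwSupported32 l o C' ψ := by
  refine ⟨⋃ h ∈ H, (fun c => c * h) '' C, ?_, ?_⟩
  · exact H.isCompact_biUnion fun h _ => hC.image (continuous_id.mul continuous_const)
  · intro x hx
    obtain ⟨h, hh, hne⟩ := hψ x hx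
    obtain ⟨hIw, c, hc, hag⟩ := hφ (x * h⁻¹) hne
    have ex : x = x * h⁻¹ * h := by simp
    refine ⟨fun j hj => ?_, c * h, ?_, ?_⟩
    · rw [ex]
      exact T5.H942.inIwahori_mul942 (o j) (hIw j hj) (hH h hh j hj)
    · exact Set.mem_biUnion hh ⟨c, hc, rfl⟩
    · have := T5.H942.agreeOutside_mul942 _ hag (T5.H942.agreeOutside_refl942 _ h)
      rwa [← ex] at this

/-- A finite sum of left translates by Iwahori elements is Iwahori-supported. -/
theorem isIwSupported_sum_ltr47 (l : ℕ) (o : ℕ → HeightOneSpectrum (𝓞 F)) (C : Set (G F))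
    (hC : IsCompact C) (φ : G F → ℂ) (hφ : T5.H32.IsIwSupported32 l o C φ)
    (X : Finset (G F)) (hX : ∀ x ∈ X, ∀ j < l, T5.InIwahori (o j) x)
    (ψ : G F → ℂ) (hψ : ∀ y, ψ y ≠ 0 → ∃ x ∈ X, φ (x⁻¹ * y) ≠ 0) :
    ∃ C' : Set (G F), IsCompact C' ∧ T5.H32.IsIwSupported32 l o C' ψ := by
  refine ⟨⋃ x ∈ X, (fun c => x * c) '' C, ?_, ?_⟩
  · exact X.isCompact_biUnion fun x _ => hC.image (continuous_const.mul continuous_id)
  · intro y hy
    obtain ⟨x, hx, hne⟩ := hψ y hy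
    obtain ⟨hIw, c, hc, hag⟩ := hφ (x⁻¹ * y) hne
    have ey : y = x * (x⁻¹ * y) := by simp
    refine ⟨fun j hj => ?_, x * c, ?_, ?_⟩
    · rw [ey]
      exact T5.H942.inIwahori_mul942 (o j) (hX x hx j hj) (hIw j hj)
    · exact Set.mem_biUnion hx ⟨c, hc, rfl⟩
    · have := T5.H942.agreeOutside_mul942 _ (T5.H942.agreeOutside_refl942 _ x) hag
      rwa [← ey] at this

end OneField

variable (K K' : Type) [Field K] [NumberField K] [Field K'] [NumberField K'] [Algebra K K']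

/-- **Leaf PB.0.U5 `SwapUpSuppC57`** from the key identity upstairs. -/
theorem swapUpSuppC_of47 (hS : PB57.SwapUpSumC57 K K') : PB57.SwapUpSuppC57 K K' := by
  intro ℓ hcyc hℓ hTC Φe B hB hram g hg 𝔫 h𝔫 μc hμc T₀ n n₀ m hexp c₁ Φ₁ F₁ hA fb hfb
    Ω iT iC iT2 iSC iM iB ν iF T T' φ₀ Φ f₀ F hdat
  obtain ⟨HU, -, hprop, hid⟩ := hS ℓ hcyc hℓ hTC Φe B hB hram g hg 𝔫 h𝔫 μc hμc T₀ n n₀ m hexp
    c₁ Φ₁ F₁ hA fb hfb Ω iT iC iT2 iSC iM iB ν iF T T' φ₀ Φ f₀ F hdat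
  have hcont := hdat.2.2.2.1
  have hΦ₁ := hdat.2.2.2.2.2.2.2.1
  obtain ⟨C, hC, hsupp⟩ := hA.up1_supp [] (by simp)
  have e : ∀ x, PB57.swapUpFn57 B T₀ n₀ ν T' φ₀ Φ x = ∑ h ∈ HU, Φ₁ [] (x * h⁻¹) := by
    intro x
    unfold PB57.swapUpFn57
    have e1 : (fun ω => pure305 (T' ω) (PB57.swUp57 B T₀ n₀ (φ₀ ω)) (Φ ω) x)
        = fun ω => ∑ h ∈ HU, pure305 (T' ω) (φ₀ ω) (Φ ω) (x * h⁻¹) := by
      funext ω
      exact (hid ω x).1
    rw [e1, integral_finsetSum]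
    · refine Finset.sum_congr rfl fun h _ => ?_
      rw [hΦ₁]
    · intro h _
      exact integrable_member47 ν (fun ω => pure305 (T' ω) (φ₀ ω) (Φ ω)) hcont _
  refine isIwSupported_sum_rtr47 ℓ B.o C hC (Φ₁ []) hsupp HU
    (fun h hh j hj => (hprop h hh).2.2.2.2 j hj) _ ?_
  intro x hx
  rw [e x] at hx
  obtain ⟨h, hh, hne⟩ := Finset.exists_ne_zero_of_sum_ne_zero hx
  exact ⟨h, hh, hne⟩

/-- **Leaf PB.0.D5 `SwapDnSuppC57`** from the key identity downstairs. -/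
theorem swapDnSuppC_of47 (hS : PB57.SwapDnSumC57 K K') : PB57.SwapDnSuppC57 K K' := by
  intro ℓ hcyc hℓ hTC Φe B hB hram g hg 𝔫 h𝔫 μc hμc T₀ n n₀ m hexp c₁ Φ₁ F₁ hA fb hfb
    Ω iT iC iT2 iSC iM iB ν iF T T' φ₀ Φ f₀ F hdat a
  obtain ⟨X, c, hprop, hid⟩ := hS ℓ hcyc hℓ hTC Φe B hB hram g hg 𝔫 h𝔫 μc hμc T₀ n n₀ m hexp
    c₁ Φ₁ F₁ hA fb hfb Ω iT iC iT2 iSC iM iB ν iF T T' φ₀ Φ f₀ F hdat
  have hcont : Continuous (fun p : Ω × G K => pure305 (T p.1) (f₀ p.1) (F p.1) p.2) := by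
    have := hdat.2.2.2.2.1
    simpa only [one_mul] using this
  have hF₁ : ∀ h : G K, F₁ [] h = ∫ ω, pure305 (T ω) (f₀ ω) (F ω) h ∂ν := by
    intro h
    have := hdat.2.2.2.2.2.2.2.2 h
    simpa only [one_mul] using this
  obtain ⟨C, hC, hsupp⟩ := hA.dn1_supp [] (by simp)
  have e : ∀ y, PB57.swapDnFn57 B T₀ fb a ν T f₀ F y
      = a * ∑ x ∈ X, c x * F₁ [] (x⁻¹ * y) := by
    intro y
    unfold PB57.swapDnFn57
    have e1 : (fun ω => a * pure305 (T ω) (PB57.swDn57 B T₀ fb (f₀ ω)) (F ω) y)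
        = fun ω => a * ∑ x ∈ X, c x * pure305 (T ω) (f₀ ω) (F ω) (x⁻¹ * y) := by
      funext ω
      rw [hid ω y]
    rw [e1, integral_const_mul, integral_finsetSum]
    · congr 1
      refine Finset.sum_congr rfl fun x _ => ?_
      rw [integral_const_mul, hF₁]
    · intro x _
      exact (integrable_member47 ν (fun ω => pure305 (T ω) (f₀ ω) (F ω)) hcont _).const_mul _
  refine isIwSupported_sum_ltr47 1 (fun _ => B.u) C hC (F₁ []) hsupp X
    (fun x hx j _ => (hprop x hx).2.2) _ ?_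
  intro y hy
  rw [e y] at hy
  have h1 : ∑ x ∈ X, c x * F₁ [] (x⁻¹ * y) ≠ 0 := right_ne_zero_of_mul hy
  obtain ⟨x, hx, hne⟩ := Finset.exists_ne_zero_of_sum_ne_zero h1
  exact ⟨x, hx, right_ne_zero_of_mul hne⟩

end Fermat.Agent.LT.T7.H47.ST

end
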