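import Mathlib
import Fermat.Agent.LT.T7.H973.PreBQSpec
import Fermat.Agent.LT.T7.H47.ST.SwapSupp

/-!
# Row LT, tower T7, the swap over `ℚ` (cut of helper973, `PreBQSpec.lean`): the leaves
# `SwapUpEKQC973`, `SwapDnEKQC973`, `SwapUpSuppQC973`, `SwapDnSuppQC973` from the key identities
# (helper47, SPARES)

OFF-MAIN.  Complete proofs, nothing assumed.  Own names only (suffix `47`).

    swapUpEKQC_of47   : PBQ973.SwapUpSumQC973 F → PBQ973.SwapUpEKQC973 F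
    swapDnEKQC_of47   : PBQ973.SwapDnSumQC973 F → PBQ973.SwapDnEKQC973 F
    swapUpSuppQC_of47 : PBQ973.SwapUpSumQC973 F → PBQ973.SwapUpSuppQC973 F
    swapDnSuppQC_of47 : PBQ973.SwapDnSumQC973 F → PBQ973.SwapDnSuppQC973 F

Mirror of `SwapEK.lean` / `SwapSupp.lean` (cubic case, cut of helper57), on the abstract forms
`avg_sum_rtr47`, `avg_sum_ltr47` (the key identity under the integral).
-/

set_option autoImplicit false

open AutomorphicForm IsDedekindDomain NumberField MeasureTheory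
open scoped ComplexConjugate Pointwise

noncomputable section

namespace Fermat.Agent.LT.T7.H47.ST

open Fermat.Agent.LT.H556 Fermat.Agent.LT.H556.A0 Fermat.Agent.LT.T7 Fermat.Agent.LT
open Fermat.Agent.LT.T7.H893 Fermat.Agent.LT.T7.H305 Fermat.Agent.LT.T7.MQ298
open Fermat.Agent.LT.T7.H732 Fermat.Agent.LT.T7.L2Q

attribute [local instance] Fermat.Agent.LT.T5.instMeasurableSpaceG

section OneField

variable {E : Type} [Field E] [NumberField E]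
variable {Ω : Type} [TopologicalSpace Ω] [CompactSpace Ω] [MeasurableSpace Ω] [BorelSpace Ω]

/-- The average of finite sums of right translates of the members. -/
theorem avg_sum_rtr47 (ν : Measure Ω) [IsFiniteMeasure ν] (ψ ψ' : Ω → G E → ℂ)
    (hc : Continuous (fun p : Ω × G E => ψ p.1 p.2)) (HU : Finset (G E))
    (hid : ∀ ω x, ψ' ω x = ∑ h ∈ HU, ψ ω (x * h⁻¹))
    (f : G E → ℂ) (hf : ∀ h, f h = ∫ ω, ψ ω h ∂ν) (x : G E) :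
    ∫ ω, ψ' ω x ∂ν = ∑ h ∈ HU, f (x * h⁻¹) := by
  have e1 : (fun ω => ψ' ω x) = fun ω => ∑ h ∈ HU, ψ ω (x * h⁻¹) := by
    funext ω
    exact hid ω x
  rw [e1, integral_finsetSum]
  · refine Finset.sum_congr rfl fun h _ => ?_
    rw [hf]
  · intro h _
    exact integrable_member47 ν ψ hc _

/-- The average of `a ·` finite combinations of left translates of the members. -/
theorem avg_sum_ltr47 (ν : Measure Ω) [IsFiniteMeasure ν] (ψ ψ' : Ω → G E → ℂ)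
    (hc : Continuous (fun p : Ω × G E => ψ p.1 p.2)) (X : Finset (G E)) (c : G E → ℂ)
    (hid : ∀ ω y, ψ' ω y = ∑ x ∈ X, c x * ψ ω (x⁻¹ * y))
    (f : G E → ℂ) (hf : ∀ h, f h = ∫ ω, ψ ω h ∂ν) (a : ℂ) (y : G E) :
    ∫ ω, a * ψ' ω y ∂ν = a * ∑ x ∈ X, c x * f (x⁻¹ * y) := by
  have e1 : (fun ω => a * ψ' ω y) = fun ω => a * ∑ x ∈ X, c x * ψ ω (x⁻¹ * y) := by
    funext ω
    rw [hid ω y]
  rw [e1, integral_const_mul, integral_finsetSum]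
  · congr 1
    refine Finset.sum_congr rfl fun x _ => ?_
    rw [integral_const_mul, hf]
  · intro x _
    exact (integrable_member47 ν ψ hc _).const_mul _

/-- `IsEKc47` for `a ·` a finite combination of left translates. -/
theorem isEKc_comb_ltr47 {μ : Measure (G E)} [μ.IsHaarMeasure] [μ.IsMulRightInvariant]
    {f : G E → ℂ} (h0 : IsEKc47 μ f) (X : Finset (G E)) (c : G E → ℂ) (a : ℂ) :
    IsEKc47 μ (fun y => a * ∑ x ∈ X, c x * f (x⁻¹ * y)) :=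
  isEKc_smul47 (isEKc_sum47 X (fun x y => c x * f (x⁻¹ * y)) fun x _ =>
    isEKc_smul47 (isEKc_ltr47 h0 x⁻¹) (c x)) a

/-- `IsEKc47` for a finite sum of right translates. -/
theorem isEKc_comb_rtr47 {μ : Measure (G E)} [μ.IsHaarMeasure] [μ.IsMulRightInvariant]
    {f : G E → ℂ} (h0 : IsEKc47 μ f) (HU : Finset (G E)) :
    IsEKc47 μ (fun x => ∑ h ∈ HU, f (x * h⁻¹)) :=
  isEKc_sum47 HU (fun h x => f (x * h⁻¹)) fun h _ => isEKc_rtr47 h0 h⁻¹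

end OneField

variable (F : Type) [Field F] [NumberField F]

/-- **Leaf PBQ.0.U2 `SwapUpEKQC973`** from the key identity upstairs. -/
theorem swapUpEKQC_of47 (hS : PBQ973.SwapUpSumQC973 F) : PBQ973.SwapUpEKQC973 F := by
  intro h3 hiq Φe B hB hram g hg 𝔫 h𝔫 μr μc hμr hμc T₀ n n₀ m hexp c hc c₁ Φ₁ F₁ hA fb hfb
    Ω iT iC iT2 iSC iM iB ν iF T T' φ₀ Φ f₀ F0 F1 hdat
  obtain ⟨HU, -, -, hid⟩ := hS h3 hiq Φe B hB hram g hg 𝔫 h𝔫 μr μc hμr hμc T₀ n n₀ m hexp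
    c hc c₁ Φ₁ F₁ hA fb hfb Ω iT iC iT2 iSC iM iB ν iF T T' φ₀ Φ f₀ F0 F1 hdat
  obtain ⟨-, -, -, -, hcont, -, -, -, -, -, hΦ₁, -, -⟩ := hdat
  have hfr : IsFrame5 (toBase962_732 B).R' := hB.frame'
  have : (toBase962_732 B).R'.μ.IsHaarMeasure := hfr.frame.haar
  have : (toBase962_732 B).R'.μ.IsMulRightInvariant := rightInv_of_frame47 hfr
  have h0 : IsEKc47 (toBase962_732 B).R'.μ (Φ₁ []) :=
    ⟨(hA.up1_test [] (by simp)).cont, (hA.up1_test [] (by simp)).supp,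
      (hA.up1_ek [] (by simp)).1, (hA.up1_ek [] (by simp)).2⟩
  have e : PBQ973.swapUpFnQ973 (toBase962_732 B) T₀ n₀ ν T' φ₀ Φ
      = fun x => ∑ h ∈ HU, Φ₁ [] (x * h⁻¹) := by
    funext x
    exact avg_sum_rtr47 ν (fun ω => pure305 (T' ω) (φ₀ ω) (Φ ω))
      (fun ω => pure305 (T' ω) (PBQ973.swUpQ973 (toBase962_732 B) T₀ n₀ (φ₀ ω)) (Φ ω))
      hcont HU (fun ω x => (hid ω x).1) (Φ₁ []) hΦ₁ x
  have h1 := isEKc_comb_rtr47 h0 HU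
  rw [e]
  exact ⟨h1.ek, h1.ekadj⟩

/-- **Leaf PBQ.0.U5 `SwapUpSuppQC973`** from the key identity upstairs. -/
theorem swapUpSuppQC_of47 (hS : PBQ973.SwapUpSumQC973 F) : PBQ973.SwapUpSuppQC973 F := by
  intro h3 hiq Φe B hB hram g hg 𝔫 h𝔫 μr μc hμr hμc T₀ n n₀ m hexp c hc c₁ Φ₁ F₁ hA fb hfb
    Ω iT iC iT2 iSC iM iB ν iF T T' φ₀ Φ f₀ F0 F1 hdat
  obtain ⟨HU, -, hprop, hid⟩ := hS h3 hiq Φe B hB hram g hg 𝔫 h𝔫 μr μc hμr hμc T₀ n n₀ m hexp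
    c hc c₁ Φ₁ F₁ hA fb hfb Ω iT iC iT2 iSC iM iB ν iF T T' φ₀ Φ f₀ F0 F1 hdat
  obtain ⟨-, -, -, -, hcont, -, -, -, -, -, hΦ₁, -, -⟩ := hdat
  obtain ⟨C, hC, hsupp⟩ := hA.up1_supp [] (by simp)
  have e : ∀ x, PBQ973.swapUpFnQ973 (toBase962_732 B) T₀ n₀ ν T' φ₀ Φ x
      = ∑ h ∈ HU, Φ₁ [] (x * h⁻¹) := fun x =>
    avg_sum_rtr47 ν (fun ω => pure305 (T' ω) (φ₀ ω) (Φ ω))
      (fun ω => pure305 (T' ω) (PBQ973.swUpQ973 (toBase962_732 B) T₀ n₀ (φ₀ ω)) (Φ ω))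
      hcont HU (fun ω x => (hid ω x).1) (Φ₁ []) hΦ₁ x
  refine isIwSupported_sum_rtr47 2 (toBase962_732 B).o C hC (Φ₁ []) hsupp HU
    (fun h hh j hj => (hprop h hh).2.2.2.2 j hj) _ ?_
  intro x hx
  rw [e x] at hx
  obtain ⟨h, hh, hne⟩ := Finset.exists_ne_zero_of_sum_ne_zero hx
  exact ⟨h, hh, hne⟩

/-- The two leaves downstairs for ONE type (the archimedean components `Fr`, the function
`fX` of the first pair). -/
theorem swapDn_core47 (B : L2Q.H60.L2QBase F) (hfr : IsFrame5 (toBase962_732 B).R)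
    (T₀ : Finset (HeightOneSpectrum (𝓞 ℚ)))
    (fb : ∀ v : HeightOneSpectrum (𝓞 ℚ), GL (Fin 2) (v.adicCompletion ℚ) → ℂ)
    {Ω : Type} [TopologicalSpace Ω] [CompactSpace Ω] [MeasurableSpace Ω] [BorelSpace Ω]
    (ν : Measure Ω) [IsFiniteMeasure ν]
    (T : Ω → Finset (HeightOneSpectrum (𝓞 ℚ)))
    (f₀ : Ω → ∀ v : HeightOneSpectrum (𝓞 ℚ), GL (Fin 2) (v.adicCompletion ℚ) → ℂ)
    (Fr : Ω → GL (Fin 2) ℝ → ℂ) (fX : G ℚ → ℂ) (τ : G ℚ → ℂ) (𝔫' : Ideal (𝓞 ℚ))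
    (htest : T5.IsTestFn 𝔫' τ fX)
    (hek : T5.IsEK (toBase962_732 B).R.μ fX ∧ T5.IsEK (toBase962_732 B).R.μ (T5.adjointFn fX))
    (hsupp : ∃ C : Set (G ℚ), IsCompact C ∧
      T5.H32.IsIwSupported32 1 (fun _ => (toBase962_732 B).u) C fX)
    (hcont : Continuous (fun p : Ω × G ℚ => (1 : ℂ) * pureQ298 (T p.1) (f₀ p.1) (Fr p.1) p.2))
    (hfX : ∀ h : G ℚ, fX h = ∫ ω, (1 : ℂ) * pureQ298 (T ω) (f₀ ω) (Fr ω) h ∂ν)
    (X : Finset (G ℚ)) (c : G ℚ → ℂ)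
    (hprop : ∀ x ∈ X, T5.InIwahori (toBase962_732 B).u x)
    (hid : ∀ (ω : Ω) (y : G ℚ),
      pureQ298 (T ω) (PBQ973.swDnQ973 (toBase962_732 B) T₀ fb (f₀ ω)) (Fr ω) y
        = ∑ x ∈ X, c x * pureQ298 (T ω) (f₀ ω) (Fr ω) (x⁻¹ * y)) (a : ℂ) :
    (T5.IsEK (toBase962_732 B).R.μ
        (PBQ973.swapDnFnQ973 (toBase962_732 B) T₀ fb a ν T f₀ Fr) ∧
      T5.IsEK (toBase962_732 B).R.μ
        (T5.adjointFn (PBQ973.swapDnFnQ973 (toBase962_732 B) T₀ fb a ν T f₀ Fr))) ∧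
    ∃ C : Set (G ℚ), IsCompact C ∧
      T5.H32.IsIwSupported32 1 (fun _ => (toBase962_732 B).u) C
        (PBQ973.swapDnFnQ973 (toBase962_732 B) T₀ fb a ν T f₀ Fr) := by
  have : (toBase962_732 B).R.μ.IsHaarMeasure := hfr.frame.haar
  have : (toBase962_732 B).R.μ.IsMulRightInvariant := rightInv_of_frame47 hfr
  have hcont' : Continuous (fun p : Ω × G ℚ => pureQ298 (T p.1) (f₀ p.1) (Fr p.1) p.2) := by
    simpa only [one_mul] using hcont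
  have hfX' : ∀ h : G ℚ, fX h = ∫ ω, pureQ298 (T ω) (f₀ ω) (Fr ω) h ∂ν := by
    intro h
    simpa only [one_mul] using hfX h
  have h0 : IsEKc47 (toBase962_732 B).R.μ fX := ⟨htest.cont, htest.supp, hek.1, hek.2⟩
  have e : ∀ y, PBQ973.swapDnFnQ973 (toBase962_732 B) T₀ fb a ν T f₀ Fr y
      = a * ∑ x ∈ X, c x * fX (x⁻¹ * y) := fun y =>
    avg_sum_ltr47 ν (fun ω => pureQ298 (T ω) (f₀ ω) (Fr ω))
      (fun ω => pureQ298 (T ω) (PBQ973.swDnQ973 (toBase962_732 B) T₀ fb (f₀ ω)) (Fr ω))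
      hcont' X c hid fX hfX' a y
  have e' : PBQ973.swapDnFnQ973 (toBase962_732 B) T₀ fb a ν T f₀ Fr
      = fun y => a * ∑ x ∈ X, c x * fX (x⁻¹ * y) := funext e
  have h1 := isEKc_comb_ltr47 h0 X c a
  refine ⟨?_, ?_⟩
  · rw [e']
    exact ⟨h1.ek, h1.ekadj⟩
  · obtain ⟨C, hC, hs⟩ := hsupp
    refine isIwSupported_sum_ltr47 1 (fun _ => (toBase962_732 B).u) C hC fX hs X
      (fun x hx j _ => hprop x hx) _ ?_
    intro y hy
    rw [e y] at hy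
    have h2 : ∑ x ∈ X, c x * fX (x⁻¹ * y) ≠ 0 := right_ne_zero_of_mul hy
    obtain ⟨x, hx, hne⟩ := Finset.exists_ne_zero_of_sum_ne_zero h2
    exact ⟨x, hx, right_ne_zero_of_mul hne⟩

/-- **Leaf PBQ.0.D2 `SwapDnEKQC973`** from the key identity downstairs. -/
theorem swapDnEKQC_of47 (hS : PBQ973.SwapDnSumQC973 F) : PBQ973.SwapDnEKQC973 F := by
  intro h3 hiq Φe B hB hram g hg 𝔫 h𝔫 μr μc hμr hμc T₀ n n₀ m hexp c hc c₁ Φ₁ F₁ hA fb hfb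
    Ω iT iC iT2 iSC iM iB ν iF T T' φ₀ Φ f₀ F0 F1 hdat a t
  obtain ⟨X, cf, hprop, hid⟩ := hS h3 hiq Φe B hB hram g hg 𝔫 h𝔫 μr μc hμr hμc T₀ n n₀ m hexp
    c hc c₁ Φ₁ F₁ hA fb hfb Ω iT iC iT2 iSC iM iB ν iF T T' φ₀ Φ f₀ F0 F1 hdat
  obtain ⟨-, -, -, -, -, hc0, hc1, -, -, -, -, hf0, hf1⟩ := hdat
  cases t with
  | w0 =>
    exact (swapDn_core47 F B hB.frame T₀ fb ν T f₀ F0 (F₁ QWt.w0 []) QWt.w0.type 𝔫
      (hA.dn1_test QWt.w0 [] (by simp)) (hA.dn1_ek QWt.w0 [] (by simp))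
      (hA.dn1_supp QWt.w0 [] (by simp)) hc0 hf0 X cf (fun x hx => (hprop x hx).2.2)
      (fun ω y => hid QWt.w0 ω y) a).1
  | w1 =>
    exact (swapDn_core47 F B hB.frame T₀ fb ν T f₀ F1 (F₁ QWt.w1 []) QWt.w1.type 𝔫
      (hA.dn1_test QWt.w1 [] (by simp)) (hA.dn1_ek QWt.w1 [] (by simp))
      (hA.dn1_supp QWt.w1 [] (by simp)) hc1 hf1 X cf (fun x hx => (hprop x hx).2.2)
      (fun ω y => hid QWt.w1 ω y) a).1

/-- **Leaf PBQ.0.D5 `SwapDnSuppQC973`** from the key identity downstairs. -/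
theorem swapDnSuppQC_of47 (hS : PBQ973.SwapDnSumQC973 F) : PBQ973.SwapDnSuppQC973 F := by
  intro h3 hiq Φe B hB hram g hg 𝔫 h𝔫 μr μc hμr hμc T₀ n n₀ m hexp c hc c₁ Φ₁ F₁ hA fb hfb
    Ω iT iC iT2 iSC iM iB ν iF T T' φ₀ Φ f₀ F0 F1 hdat a t
  obtain ⟨X, cf, hprop, hid⟩ := hS h3 hiq Φe B hB hram g hg 𝔫 h𝔫 μr μc hμr hμc T₀ n n₀ m hexp
    c hc c₁ Φ₁ F₁ hA fb hfb Ω iT iC iT2 iSC iM iB ν iF T T' φ₀ Φ f₀ F0 F1 hdat
  obtain ⟨-, -, -, -, -, hc0, hc1, -, -, -, -, hf0, hf1⟩ := hdat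
  cases t with
  | w0 =>
    exact (swapDn_core47 F B hB.frame T₀ fb ν T f₀ F0 (F₁ QWt.w0 []) QWt.w0.type 𝔫
      (hA.dn1_test QWt.w0 [] (by simp)) (hA.dn1_ek QWt.w0 [] (by simp))
      (hA.dn1_supp QWt.w0 [] (by simp)) hc0 hf0 X cf (fun x hx => (hprop x hx).2.2)
      (fun ω y => hid QWt.w0 ω y) a).2
  | w1 =>
    exact (swapDn_core47 F B hB.frame T₀ fb ν T f₀ F1 (F₁ QWt.w1 []) QWt.w1.type 𝔫
      (hA.dn1_test QWt.w1 [] (by simp)) (hA.dn1_ek QWt.w1 [] (by simp))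
      (hA.dn1_supp QWt.w1 [] (by simp)) hc1 hf1 X cf (fun x hx => (hprop x hx).2.2)
      (fun ω y => hid QWt.w1 ω y) a).2

end Fermat.Agent.LT.T7.H47.ST

end
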